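import Fermat.Agent.S21.H81.InjCore

/-!
# S21, interface piece C' (helper201's exact statement): a cusp form all of whose periods
have vanishing real part is zero.
-/

set_option autoImplicit false

open UpperHalfPlane CongruenceSubgroup Filter Topology Complex ModularCurve ModularCurve.Period
open scoped MatrixGroups Manifold

namespace Fermat.Agent.S21.H81

/-- **C'** If all periods of `f` have real part `0`, then `f = 0`. -/
theorem eq_zero_of_re_period_eq_zero (N : ℕ) [NeZero N] (f : CuspForm (Gamma0 N) 2)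
    {F : ℍ → ℂ} (hF : HasEquivariantPrimitive N f F)
    (h : ∀ γ : Gamma0 N, (F ((γ : SL(2, ℤ)) • UpperHalfPlane.I) - F UpperHalfPlane.I).re = 0) :
    f = 0 := by
  have hd : ∀ τ : ℍ, deriv (F ∘ ofComplex) (τ : ℂ) = 0 := by
    refine injCore_deriv_eq_zero (N := N) (fun τ => (hF.1 τ).differentiableAt) ?_ hF.2.2.2
    intro γ hγ
    exact ⟨hF.2.2.1.period ⟨γ, hγ⟩, h ⟨γ, hγ⟩, fun z => hF.2.2.1.sub_eq_period ⟨γ, hγ⟩ z⟩
  ext τ
  have := hd τ
  rw [(hF.1 τ).deriv] at this
  simpa using this

end Fermat.Agent.S21.H81
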